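/-
S18 / Program J (helper13): integral lifts.

`IsIntLift A N y yb` : the element `y` of the function field `F_N / ℚ̄` and the element `yb` of the
function field `F̄_N / k` (`k` the residue field of `A`) are the two reductions of one Laurent
series with coefficients in the valuation ring `A`.

Contents:
* closure of integral lifts under `1`, `*`, `^`, `-`, constants;
* every element of `F̄_N` is a quotient of reductions of integral lifts (`exists_intLift_div`);
* the conservation law of `IsPlaceReductionAlong` and membership in `integralPrincipalDivisors`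
  restated for integral lifts;
* an element of the subgroup generated by the integral principal divisors is the difference of
  the divisors of two integral lifts (`exists_intLift_of_mem_closure`).
-/
import Fermat.Statements.S18

set_option autoImplicit false

open AlgebraicCurve IntermediateField ModularCurve

noncomputable section

namespace Fermat.Agent.S18.H13

/-- `ℚ̄`. -/
abbrev Kb : Type := AlgebraicClosure ℚ

/-- The function field of `X₀(N)` over `ℚ̄`, as a type. -/
abbrev FN (N : ℕ) : Type := ↥(modularFunctionFieldBar N)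

/-- The residue field of `A`. -/
abbrev kA (A : ValuationSubring Kb) : Type := IsLocalRing.ResidueField A

/-- The function field of `X₀(N)` over the residue field of `A`, as a type. -/
abbrev FbN (A : ValuationSubring Kb) (N : ℕ) : Type := ↥(modularFunctionFieldFullC (kA A) N)

variable (A : ValuationSubring Kb) (N : ℕ)

/-- `y` and `yb` are the two reductions of one Laurent series over `A`. -/
def IsIntLift (y : FN N) (yb : FbN A N) : Prop :=
  ∃ Y : LaurentSeries A, coeffMap A.subtype Y = (y : LaurentSeries Kb) ∧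
    coeffMap (IsLocalRing.residue A) Y = (yb : LaurentSeries (kA A))

variable {A N}

theorem coeffMap_subtype_injective :
    Function.Injective (coeffMap A.subtype : LaurentSeries A → LaurentSeries Kb) := by
  intro x y h
  ext n
  have := congrArg (fun z => z.coeff n) h
  simp only [coeffMap_coeff] at this
  exact this

theorem IsIntLift.one : IsIntLift A N 1 1 :=
  ⟨1, by simp, by simp⟩

theorem IsIntLift.zero : IsIntLift A N 0 0 :=
  ⟨0, by simp, by simp⟩

theorem IsIntLift.mul {y y' : FN N} {yb yb' : FbN A N} (h : IsIntLift A N y yb)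
    (h' : IsIntLift A N y' yb') : IsIntLift A N (y * y') (yb * yb') := by
  obtain ⟨Y, h1, h2⟩ := h
  obtain ⟨Y', h1', h2'⟩ := h'
  exact ⟨Y * Y', by rw [map_mul, h1, h1']; rfl, by rw [map_mul, h2, h2']; rfl⟩

theorem IsIntLift.add {y y' : FN N} {yb yb' : FbN A N} (h : IsIntLift A N y yb)
    (h' : IsIntLift A N y' yb') : IsIntLift A N (y + y') (yb + yb') := by
  obtain ⟨Y, h1, h2⟩ := h
  obtain ⟨Y', h1', h2'⟩ := h'
  exact ⟨Y + Y', by rw [map_add, h1, h1']; rfl, by rw [map_add, h2, h2']; rfl⟩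

theorem IsIntLift.neg {y : FN N} {yb : FbN A N} (h : IsIntLift A N y yb) :
    IsIntLift A N (-y) (-yb) := by
  obtain ⟨Y, h1, h2⟩ := h
  exact ⟨-Y, by rw [map_neg, h1]; rfl, by rw [map_neg, h2]; rfl⟩

theorem IsIntLift.sub {y y' : FN N} {yb yb' : FbN A N} (h : IsIntLift A N y yb)
    (h' : IsIntLift A N y' yb') : IsIntLift A N (y - y') (yb - yb') := by
  rw [sub_eq_add_neg, sub_eq_add_neg]
  exact h.add h'.neg

theorem IsIntLift.pow {y : FN N} {yb : FbN A N} (h : IsIntLift A N y yb) (n : ℕ) :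
    IsIntLift A N (y ^ n) (yb ^ n) := by
  induction n with
  | zero => simpa using IsIntLift.one
  | succ n ih => rw [pow_succ, pow_succ]; exact ih.mul h

/-- Constants of `A` are integral lifts. -/
theorem IsIntLift.const (c : A) :
    IsIntLift A N (algebraMap Kb (FN N) (c : Kb))
      (algebraMap (kA A) (FbN A N) (IsLocalRing.residue A c)) := by
  refine ⟨HahnSeries.single 0 c, ?_, ?_⟩
  · rw [coeffMap_single]
    exact (algebraMap_laurentSeries_eq_single Kb (c : Kb)).symm
  · rw [coeffMap_single]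
    exact (algebraMap_laurentSeries_eq_single (kA A) (IsLocalRing.residue A c)).symm

/-- A lift of a nonzero element is nonzero. -/
theorem IsIntLift.ne_zero {y : FN N} {yb : FbN A N} (h : IsIntLift A N y yb) (hyb : yb ≠ 0) :
    y ≠ 0 := by
  rintro rfl
  obtain ⟨Y, h1, h2⟩ := h
  have hY : Y = 0 := by
    apply coeffMap_subtype_injective
    rw [h1, map_zero]
    rfl
  apply hyb
  apply Subtype.ext
  rw [← h2, hY, map_zero]
  rfl

/-- The generators `j(q^d)` lie in the function field over `ℚ̄`. -/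
theorem qExpand_jqModC_mem_bar {d : ℕ} [NeZero d] (hd : d ∣ N) :
    qExpand Kb d (jqModC Kb) ∈ modularFunctionFieldBar N := by
  have h := coeffEmb_mem_laurentBaseChange Kb (jqd_mem_full N hd)
  have h2 : coeffEmb Kb (qExpand ℚ d jq) = qExpand Kb d (jqModC Kb) := by
    rw [coeffEmb, coeffMap_qExpand, ← jqModC_rat, coeffMap_jqModC]
  rwa [h2] at h

/-- Every element of `F̄_N` is a quotient of reductions of integral lifts. -/
theorem exists_intLift_div (φ : FbN A N) :
    ∃ (z₁ : FN N) (zb₁ : FbN A N) (z₂ : FN N) (zb₂ : FbN A N),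
      IsIntLift A N z₁ zb₁ ∧ IsIntLift A N z₂ zb₂ ∧ zb₂ ≠ 0 ∧ φ * zb₂ = zb₁ := by
  obtain ⟨x, hx⟩ := φ
  suffices H : ∃ (z₁ : FN N) (zb₁ : FbN A N) (z₂ : FN N) (zb₂ : FbN A N),
      IsIntLift A N z₁ zb₁ ∧ IsIntLift A N z₂ zb₂ ∧ zb₂ ≠ 0 ∧
        x * (zb₂ : LaurentSeries (kA A)) = (zb₁ : LaurentSeries (kA A)) by
    obtain ⟨z₁, zb₁, z₂, zb₂, h1, h2, h3, h4⟩ := H
    exact ⟨z₁, zb₁, z₂, zb₂, h1, h2, h3, Subtype.ext h4⟩
  unfold modularFunctionFieldFullC at hx
  induction hx using IntermediateField.adjoin_induction with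
  | mem x hx =>
    obtain ⟨d, hne, hd, rfl⟩ := hx
    have := hne
    refine ⟨⟨qExpand Kb d (jqModC Kb), qExpand_jqModC_mem_bar hd⟩,
      ⟨qExpand (kA A) d (jqModC (kA A)), jqModCd_mem_full (kA A) N hd⟩, 1, 1, ?_, IsIntLift.one,
      one_ne_zero, ?_⟩
    · refine ⟨qExpand A d (jqModC A), ?_, ?_⟩
      · rw [coeffMap_qExpand, coeffMap_jqModC]
      · rw [coeffMap_qExpand, coeffMap_jqModC]
    · simp
  | algebraMap c =>
    obtain ⟨a, rfl⟩ := IsLocalRing.residue_surjective c
    refine ⟨_, _, 1, 1, IsIntLift.const a, IsIntLift.one, one_ne_zero, ?_⟩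
    simp
  | add x y _ _ hx hy =>
    obtain ⟨z₁, zb₁, z₂, zb₂, h1, h2, h3, h4⟩ := hx
    obtain ⟨w₁, wb₁, w₂, wb₂, g1, g2, g3, g4⟩ := hy
    refine ⟨z₁ * w₂ + w₁ * z₂, zb₁ * wb₂ + wb₁ * zb₂, z₂ * w₂, zb₂ * wb₂,
      (h1.mul g2).add (g1.mul h2), h2.mul g2, mul_ne_zero h3 g3, ?_⟩
    push_cast
    rw [← h4, ← g4]
    ring
  | inv x _ hx =>
    obtain ⟨z₁, zb₁, z₂, zb₂, h1, h2, h3, h4⟩ := hx
    by_cases h0 : zb₁ = 0
    · have hx0 : x = 0 := by
        have h3' : (zb₂ : LaurentSeries (kA A)) ≠ 0 := fun h => h3 (Subtype.ext h)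
        rw [h0] at h4
        exact (mul_eq_zero.mp h4).resolve_right h3'
      refine ⟨0, 0, 1, 1, IsIntLift.zero, IsIntLift.one, one_ne_zero, ?_⟩
      rw [hx0]
      simp
    · refine ⟨z₂, zb₂, z₁, zb₁, h2, h1, h0, ?_⟩
      have h3' : (zb₂ : LaurentSeries (kA A)) ≠ 0 := fun h => h3 (Subtype.ext h)
      have h0' : (zb₁ : LaurentSeries (kA A)) ≠ 0 := fun h => h0 (Subtype.ext h)
      have hx0 : x ≠ 0 := by
        rintro rfl
        rw [zero_mul] at h4
        exact h0' h4.symm
      rw [← h4]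
      field_simp
  | mul x y _ _ hx hy =>
    obtain ⟨z₁, zb₁, z₂, zb₂, h1, h2, h3, h4⟩ := hx
    obtain ⟨w₁, wb₁, w₂, wb₂, g1, g2, g3, g4⟩ := hy
    refine ⟨z₁ * w₁, zb₁ * wb₁, z₂ * w₂, zb₂ * wb₂, h1.mul g1, h2.mul g2, mul_ne_zero h3 g3, ?_⟩
    push_cast
    rw [← h4, ← g4]
    ring

section Conservation

variable {r : Place Kb (FN N) → Place (kA A) (FbN A N)}

/-- The conservation law of a place reduction, for integral lifts. -/
theorem IsIntLift.mapDomain_apply (hr : IsPlaceReductionAlong A (IsLocalRing.residue A) N r)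
    {y : FN N} {yb : FbN A N} (h : IsIntLift A N y yb) (hyb : yb ≠ 0)
    (D : Divisor Kb (FN N)) (hD : ∀ P, D P = P.ord y) (Q : Place (kA A) (FbN A N)) :
    Finsupp.mapDomain r D Q = Q.ord yb := by
  obtain ⟨Y, h1, h2⟩ := h
  have hy : coeffMap A.subtype Y ∈ laurentBaseChange Kb (modularFunctionFieldFull N) := by
    rw [h1]; exact y.2
  have hyk : coeffMap (IsLocalRing.residue A) Y ∈ modularFunctionFieldFullC (kA A) N := by
    rw [h2]; exact yb.2
  have hne : coeffMap (IsLocalRing.residue A) Y ≠ 0 := by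
    rw [h2]
    exact fun h => hyb (Subtype.ext h)
  have e1 : (⟨coeffMap A.subtype Y, hy⟩ : FN N) = y := Subtype.ext h1
  have e2 : (⟨coeffMap (IsLocalRing.residue A) Y, hyk⟩ : FbN A N) = yb := Subtype.ext h2
  have := hr.2 Y hy hyk hne D (fun P => by rw [hD P, e1]) Q
  rw [this, e2]

/-- An element of the subgroup generated by the integral principal divisors is the difference
of the divisors of two integral lifts with nonzero reductions. -/
theorem exists_intLift_of_mem_closure {E : Divisor Kb (FN N)}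
    (hE : E ∈ AddSubgroup.closure (integralPrincipalDivisors A (IsLocalRing.residue A) N)) :
    ∃ (y₁ : FN N) (yb₁ : FbN A N) (y₂ : FN N) (yb₂ : FbN A N),
      IsIntLift A N y₁ yb₁ ∧ yb₁ ≠ 0 ∧ IsIntLift A N y₂ yb₂ ∧ yb₂ ≠ 0 ∧
        ∀ P : Place Kb (FN N), E P = P.ord y₁ - P.ord y₂ := by
  induction hE using AddSubgroup.closure_induction with
  | mem E hE =>
    obtain ⟨Y, hy, hyk, hne, hD⟩ := hE
    refine ⟨⟨_, hy⟩, ⟨_, hyk⟩, 1, 1, ⟨Y, rfl, rfl⟩, fun h => hne (congrArg Subtype.val h),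
      IsIntLift.one, one_ne_zero, fun P => ?_⟩
    rw [hD P, Place.ord_one, sub_zero]
  | zero =>
    exact ⟨1, 1, 1, 1, IsIntLift.one, one_ne_zero, IsIntLift.one, one_ne_zero, fun P => by simp⟩
  | add E E' _ _ hE hE' =>
    obtain ⟨y₁, yb₁, y₂, yb₂, h1, n1, h2, n2, hP⟩ := hE
    obtain ⟨w₁, wb₁, w₂, wb₂, g1, m1, g2, m2, hP'⟩ := hE'
    refine ⟨y₁ * w₁, yb₁ * wb₁, y₂ * w₂, yb₂ * wb₂, h1.mul g1, mul_ne_zero n1 m1, h2.mul g2,
      mul_ne_zero n2 m2, fun P => ?_⟩
    rw [Finsupp.add_apply, hP P, hP' P, P.ord_mul (h1.ne_zero n1) (g1.ne_zero m1),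
      P.ord_mul (h2.ne_zero n2) (g2.ne_zero m2)]
    ring
  | neg E _ hE =>
    obtain ⟨y₁, yb₁, y₂, yb₂, h1, n1, h2, n2, hP⟩ := hE
    refine ⟨y₂, yb₂, y₁, yb₁, h2, n2, h1, n1, fun P => ?_⟩
    rw [Finsupp.neg_apply, hP P]
    ring

end Conservation

end Fermat.Agent.S18.H13
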