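/-
S18 / Program J (helper13): principal divisors of a function field in one variable over an
algebraically closed field of characteristic zero have finite support and degree `0`.

Generic statement (`exists_divisor_of_ne_zero`): `K` algebraically closed of characteristic `0`,
`F / K` algebraic over `K(t)` and finitely generated as a field.  Then every `f ≠ 0` has a
divisor `D` (a `Finsupp`) with `D v = v.ord f` for all places `v`, and `deg D = 0`.
Proof: landed fundamental identity `S24/H79.exists_finset_ord_pos` applied to `f` and `f⁻¹`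
(both have `[F : K(f)]` zeros), degree-one places (`S24.deg_eq_one`).

Specialisation: `hasPrincipalDivisors_FF N : HasPrincipalDivisors ℚ̄ (FF N)` for the function
field of `X₀(N)` over `ℚ̄`, and `deg_eq_one_FF`.
-/
import Fermat.Agent.S24.Global
import Fermat.Agent.S24.ModGlobal
import Fermat.Agent.S24.H79.Fib

set_option autoImplicit false

open AlgebraicCurve IntermediateField

noncomputable section

namespace Fermat.Agent.S18.H13

section Generic

variable {K F : Type*} [Field K] [Field F] [Algebra K F]

/-- If `F` is algebraic over `K(t)` then `F` is algebraic over `K(y)` for every `y ∈ F`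
transcendental over `K`. -/
theorem isAlgebraic_adjoin_of_transcendental (t : F) [Algebra.IsAlgebraic K⟮t⟯ F] {y : F}
    (hy : Transcendental K y) : Algebra.IsAlgebraic K⟮y⟯ F := by
  have halg : Algebra.IsAlgebraic (Algebra.adjoin K ({t} : Set F)) F :=
    IntermediateField.isAlgebraic_adjoin_iff_top.mp inferInstance
  have hle : Algebra.trdeg K F ≤ Cardinal.mk ({t} : Set F) :=
    Algebra.IsAlgebraic.trdeg_le_cardinalMk K ({t} : Set F)
  have hx : AlgebraicIndependent K (fun _ : PUnit => y) :=
    algebraicIndependent_unique_type_iff.mpr hy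
  have hb : IsTranscendenceBasis K (fun _ : PUnit => y) :=
    hx.isTranscendenceBasis_of_trdeg_le_of_finite (by simpa using hle)
  have h := hb.isAlgebraic_field
  rwa [Set.range_const] at h

/-- If `F` is algebraic over `K(t)` and finitely generated over `K`, then `F` is finite over
`K(y)` for every `y ∈ F` transcendental over `K`. -/
theorem finiteDimensional_adjoin_of_transcendental (t : F) [Algebra.IsAlgebraic K⟮t⟯ F]
    (S : Set F) (hSf : S.Finite) (hS : IntermediateField.adjoin K S = ⊤) {y : F}
    (hy : Transcendental K y) : FiniteDimensional K⟮y⟯ F := by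
  have halg : Algebra.IsAlgebraic K⟮y⟯ F := isAlgebraic_adjoin_of_transcendental t hy
  haveI : Finite S := hSf.to_subtype
  have hfin : FiniteDimensional K⟮y⟯ (IntermediateField.adjoin K⟮y⟯ S) :=
    IntermediateField.finiteDimensional_adjoin fun x _ => (halg.isAlgebraic x).isIntegral
  have htop : IntermediateField.adjoin K⟮y⟯ S = ⊤ := by
    rw [eq_top_iff]
    intro x _
    have hx : x ∈ IntermediateField.adjoin K S := by rw [hS]; trivial
    have hle : IntermediateField.adjoin K S
        ≤ (IntermediateField.adjoin K⟮y⟯ S).restrictScalars K := by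
      rw [IntermediateField.adjoin_le_iff]
      intro s hs
      exact IntermediateField.subset_adjoin K⟮y⟯ _ hs
    exact hle hx
  rw [htop] at hfin
  exact (IntermediateField.topEquiv (F := K⟮y⟯) (E := F)).toLinearEquiv.finiteDimensional

theorem adjoin_inv_eq (y : F) : K⟮y⁻¹⟯ = K⟮y⟯ := by
  apply le_antisymm
  · rw [IntermediateField.adjoin_le_iff, Set.singleton_subset_iff]
    exact inv_mem (IntermediateField.mem_adjoin_simple_self K y)
  · rw [IntermediateField.adjoin_le_iff, Set.singleton_subset_iff]
    have h : y⁻¹ ∈ K⟮y⁻¹⟯ := IntermediateField.mem_adjoin_simple_self K y⁻¹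
    simpa using inv_mem h

/-- **Principal divisors have degree zero.** -/
theorem exists_divisor_of_ne_zero [IsAlgClosed K] [CharZero K] (t : F)
    [Algebra.IsAlgebraic K⟮t⟯ F] (S : Set F) (hSf : S.Finite)
    (hS : IntermediateField.adjoin K S = ⊤) {f : F} (hf : f ≠ 0) :
    ∃ D : Divisor K F, (∀ v : Place K F, D v = v.ord f) ∧ Divisor.degree D = 0 := by
  classical
  by_cases halg : IsAlgebraic K f
  · -- constants
    obtain ⟨a, rfl⟩ : ∃ a : K, algebraMap K F a = f := by
      have hint : IsIntegral K f := halg.isIntegral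
      have hdeg : (minpoly K f).degree = 1 :=
        IsAlgClosed.degree_eq_one_of_irreducible K (minpoly.irreducible hint)
      exact minpoly.mem_range_of_degree_eq_one K f hdeg
    refine ⟨0, fun v => ?_, map_zero _⟩
    rw [Finsupp.zero_apply, Fermat.Agent.S24.H95.ord_algebraMap]
  · have htr : Transcendental K f := halg
    have htr' : Transcendental K f⁻¹ := by
      intro h
      exact halg (by simpa using h.inv)
    have hfd : FiniteDimensional K⟮f⟯ F := finiteDimensional_adjoin_of_transcendental t S hSf hS htr
    obtain ⟨s₁, hs₁, hsum₁⟩ := Fermat.Agent.S24.H79.exists_finset_ord_pos K⟮f⟯ f htr rfl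
    obtain ⟨s₂, hs₂, hsum₂⟩ :=
      Fermat.Agent.S24.H79.exists_finset_ord_pos K⟮f⟯ f⁻¹ htr' (adjoin_inv_eq f)
    have hdeg : ∀ v : Place K F, v.deg = 1 := fun v => Fermat.Agent.S24.deg_eq_one t v
    have hsupp : ∀ v : Place K F, v.ord f ≠ 0 → v ∈ s₁ ∪ s₂ := by
      intro v hv
      rw [Finset.mem_union, hs₁, hs₂, v.ord_inv]
      rcases lt_or_gt_of_ne hv with h | h
      · right; omega
      · left; exact h
    refine ⟨Finsupp.onFinset (s₁ ∪ s₂) (fun v => v.ord f) hsupp, fun v => rfl, ?_⟩
    have hdisj : Disjoint s₁ s₂ := by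
      rw [Finset.disjoint_left]
      intro v h1 h2
      rw [hs₁] at h1
      rw [hs₂, v.ord_inv] at h2
      omega
    rw [Fermat.Agent.S24.H95.degree_eq_sum_of_support_subset hdeg _ (s₁ ∪ s₂)
      Finsupp.support_onFinset_subset, Finset.sum_union hdisj]
    have e₂ : ∑ v ∈ s₂, v.ord f = -∑ v ∈ s₂, v.ord f⁻¹ := by
      rw [← Finset.sum_neg_distrib]
      exact Finset.sum_congr rfl fun v _ => by rw [v.ord_inv, neg_neg]
    simp only [Finsupp.onFinset_apply]
    rw [hsum₁, e₂, hsum₂]
    ring

end Generic

section Modular

open Fermat.Agent.S24 ModularCurve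

variable (N : ℕ) [NeZero N]

/-- `F_N` is algebraic over `ℚ̄(j)`. -/
theorem isAlgebraic_adjoin_jgen : Algebra.IsAlgebraic Kbar⟮jgen N⟯ (FF N) := by
  classical
  haveI : Fintype (XX N) := Fintype.ofFinite _
  obtain ⟨G, -, -⟩ := exists_modularGlobalData N
  have h := (G.fin 0).isAlgebraic G.frac
  have h0 : jgen N - algebraMap Kbar (FF N) 0 = jgen N := by simp
  rwa [h0] at h

/-- `F_N` is generated over `ℚ̄` by the finitely many `j_d`. -/
theorem adjoin_jF_eq_top :
    IntermediateField.adjoin Kbar (Set.range (jF N)) = ⊤ := by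
  rw [eq_top_iff]
  intro f _
  obtain ⟨P, Q, -, rfl⟩ := evF_frac N f
  have key : ∀ P : MvPolynomial (N.divisors) Kbar, evF N P ∈
      IntermediateField.adjoin Kbar (Set.range (jF N)) := by
    intro P
    have h1 : evF N P ∈ Algebra.adjoin Kbar (Set.range (jF N)) := by
      rw [Algebra.adjoin_range_eq_range_aeval]
      exact ⟨P, rfl⟩
    exact IntermediateField.algebra_adjoin_le_adjoin Kbar _ h1
  exact div_mem (key P) (key Q)

/-- Principal divisors of `F_N / ℚ̄` have finite support and degree `0`. -/
theorem hasPrincipalDivisors_FF : HasPrincipalDivisors Kbar (FF N) where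
  exists_divisor f hf := by
    haveI := isAlgebraic_adjoin_jgen N
    exact exists_divisor_of_ne_zero (jgen N) _ (Set.finite_range (jF N)) (adjoin_jF_eq_top N) hf

/-- All places of `F_N / ℚ̄` have degree `1`. -/
theorem deg_eq_one_FF (v : Place Kbar (FF N)) : v.deg = 1 := by
  haveI := isAlgebraic_adjoin_jgen N
  exact Fermat.Agent.S24.deg_eq_one (jgen N) v

end Modular

end Fermat.Agent.S18.H13
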