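/-
S18 / Program J (helper13): the `q`-adic place ("the cusp `∞`") of the function field
`F̄_N = k(j(q^d) : d ∣ N) ⊂ k((q))` over an arbitrary field `k`.

`qPlace k N : Place k F̄_N` has valuation ring `{f | 0 ≤ order f}` and `ord = q`-order
(uniformiser `1 / j`).  Built with the landed generic toolkit `S24/H52/AddVal.lean`.
-/
import Fermat.Prelude.Def_ModularCurve_X0ModL
import Fermat.Agent.S24.H52.AddVal

set_option autoImplicit false

open AlgebraicCurve ModularCurve

noncomputable section

namespace Fermat.Agent.S18.H13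

variable (k : Type*) [Field k] (N : ℕ)

/-- The `q`-expansion of `j` has order `-1`. -/
theorem order_jqModC : (jqModC k).order = -1 := by
  have h1 : (jqModC k).coeff (-1) ≠ 0 := by
    rw [coeff_jqModC_neg_one]; exact one_ne_zero
  have hle := HahnSeries.order_le_of_coeff_ne_zero h1
  have hne : jqModC k ≠ 0 := HahnSeries.ne_zero_of_coeff_ne_zero h1
  by_contra hcon
  have hlt : (jqModC k).order < -1 := lt_of_le_of_ne hle hcon
  have h0 := coeff_jqModC_of_lt k hlt
  exact hne (HahnSeries.coeff_order_eq_zero.mp h0)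

/-- The `q`-order on `F̄_N`. -/
def qOrd (f : ↥(modularFunctionFieldFullC k N)) : ℤ := (f : LaurentSeries k).order

theorem isAddVal_qOrd : Fermat.Agent.S24.H52.IsAddVal (qOrd k N) :=
  Fermat.Agent.S24.H52.isAddVal_order
    (algebraMap ↥(modularFunctionFieldFullC k N) (LaurentSeries k))

theorem qOrd_algebraMap (a : k) :
    qOrd k N (algebraMap k ↥(modularFunctionFieldFullC k N) a) = 0 := by
  show (algebraMap k (LaurentSeries k) a).order = 0
  rw [algebraMap_laurentSeries_eq_single]
  by_cases ha : a = 0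
  · rw [ha, HahnSeries.single_eq_zero, HahnSeries.order_zero]
  · exact HahnSeries.order_single ha

/-- `j` as an element of `F̄_N`. -/
def jbar : ↥(modularFunctionFieldFullC k N) := ⟨jqModC k, jqModC_mem_full k N⟩

theorem jbar_ne_zero : jbar k N ≠ 0 := by
  intro h
  have h1 : (jqModC k).coeff (-1) = 0 := by
    have := congrArg (fun x : ↥(modularFunctionFieldFullC k N) => (x : LaurentSeries k)) h
    simp only [jbar] at this
    rw [this]
    rfl
  rw [coeff_jqModC_neg_one] at h1
  exact one_ne_zero h1

theorem qOrd_jbar : qOrd k N (jbar k N) = -1 := order_jqModC k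

theorem qOrd_jbar_inv : qOrd k N (jbar k N)⁻¹ = 1 := by
  rw [(isAddVal_qOrd k N).map_inv (jbar_ne_zero k N), qOrd_jbar]
  rfl

/-- The `q`-adic place of `F̄_N`. -/
def qPlace : Place k ↥(modularFunctionFieldFullC k N) :=
  (isAddVal_qOrd k N).place (fun a _ => (qOrd_algebraMap k N a).ge)
    ⟨jbar k N, jbar_ne_zero k N, by rw [qOrd_jbar]; norm_num⟩

/-- The order function of the `q`-adic place is the `q`-order. -/
theorem qPlace_ord {f : ↥(modularFunctionFieldFullC k N)} (hf : f ≠ 0) :
    (qPlace k N).ord f = (f : LaurentSeries k).order :=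
  (isAddVal_qOrd k N).place_ord_eq (fun a _ => (qOrd_algebraMap k N a).ge)
    ⟨jbar k N, jbar_ne_zero k N, by rw [qOrd_jbar]; norm_num⟩
    ⟨(jbar k N)⁻¹, inv_ne_zero (jbar_ne_zero k N), qOrd_jbar_inv k N⟩ f hf

end Fermat.Agent.S18.H13
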