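/-
S18 / Program J (helper13): leaf CONST.

`const_of_reduction`: in the situation of S18 (a place reduction `r` satisfying the conservation
law of `IsPlaceReductionAlong`), an element of `F̄_N = k(j(q^d) : d ∣ N)` without zeros and poles
is a constant.

Proof.  `f = z̄₁ / z̄₂` with integral lifts (`exists_intLift_div`).  At the `q`-adic place
`f = c̄ + (higher order)`, `c̄ ≠ 0`.  If `f ≠ c̄`, then `w := z₁ - c z₂` is an integral lift of
`(f - c̄) z̄₂ ≠ 0`, and by conservation `E := r_*(div w - div z₂)` is the divisor of `f - c̄`: it is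
`≥ 0` everywhere and `> 0` at the `q`-adic place, but its degree is
`deg (div w - div z₂) = 0` (principal divisors in characteristic `0` have degree `0`, and `r`
preserves degrees).  Contradiction.
-/
import Fermat.Agent.S18.H13.IntLift
import Fermat.Agent.S18.H13.QPlace
import Fermat.Agent.S18.H13.PrincDiv

set_option autoImplicit false

open AlgebraicCurve IntermediateField ModularCurve

noncomputable section

namespace Fermat.Agent.S18.H13

variable {A : ValuationSubring Kb} {N : ℕ}
variable {r : Place Kb (FN N) → Place (kA A) (FbN A N)}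

/-- The degree of a divisor as a sum over its support. -/
theorem degree_eq_sum_support {K F : Type*} [Field K] [Field F] [Algebra K F] (D : Divisor K F) :
    Divisor.degree D = ∑ v ∈ D.support, D v * (v.deg : ℤ) := by
  unfold Divisor.degree
  rw [Finsupp.liftAddHom_apply, Finsupp.sum]
  rfl

/-- **CONST**, abstract form: with the conservation law, degree-zero principal divisors in
characteristic `0` and places of positive degree, a function on the special fibre without zeros
and poles is constant. -/
theorem const_of_reduction_aux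
    (hr : IsPlaceReductionAlong A (IsLocalRing.residue A) N r)
    (hPD : ∀ f : FN N, f ≠ 0 →
      ∃ D : Divisor Kb (FN N), (∀ v : Place Kb (FN N), D v = v.ord f) ∧ Divisor.degree D = 0)
    (hdeg : ∀ P : Place Kb (FN N), 0 < P.deg)
    (f : FbN A N) (hf : f ≠ 0) (hord : ∀ Q : Place (kA A) (FbN A N), Q.ord f = 0) :
    ∃ c : kA A, f = algebraMap (kA A) (FbN A N) c := by
  classical
  obtain ⟨z₁, zb₁, z₂, zb₂, h1, h2, h3, h4⟩ := exists_intLift_div (A := A) (N := N) f
  -- the `q`-expansion of `f` has order `0`
  have ho : (f : LaurentSeries (kA A)).order = 0 := by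
    rw [← qPlace_ord (kA A) N hf]; exact hord _
  have hfL : (f : LaurentSeries (kA A)) ≠ 0 := fun h => hf (Subtype.ext h)
  set cb : kA A := (f : LaurentSeries (kA A)).coeff 0 with hcb
  refine ⟨cb, ?_⟩
  by_contra hne
  obtain ⟨c, hc⟩ := IsLocalRing.residue_surjective cb
  set g : FbN A N := f - algebraMap (kA A) (FbN A N) cb with hg
  have hg0 : g ≠ 0 := sub_ne_zero.mpr hne
  -- the lift of `g * zb₂`
  have hW : IsIntLift A N (z₁ - algebraMap Kb (FN N) (c : Kb) * z₂)
      (zb₁ - algebraMap (kA A) (FbN A N) cb * zb₂) := by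
    have := (IsIntLift.const (A := A) (N := N) c).mul h2
    rw [hc] at this
    exact h1.sub this
  have hWb : zb₁ - algebraMap (kA A) (FbN A N) cb * zb₂ = g * zb₂ := by
    rw [← h4, hg]; ring
  have hWne : zb₁ - algebraMap (kA A) (FbN A N) cb * zb₂ ≠ 0 := by
    rw [hWb]; exact mul_ne_zero hg0 h3
  obtain ⟨D₁, hD₁, hd₁⟩ := hPD _ (hW.ne_zero hWne)
  obtain ⟨D₂, hD₂, hd₂⟩ := hPD _ (h2.ne_zero h3)
  set E : Divisor (kA A) (FbN A N) := Finsupp.mapDomain r (D₁ - D₂) with hE
  -- `E` is the divisor of `g`
  have hEg : ∀ Q : Place (kA A) (FbN A N), E Q = Q.ord g := by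
    intro Q
    rw [hE, Finsupp.mapDomain_sub, Finsupp.sub_apply, hW.mapDomain_apply hr hWne D₁ hD₁ Q,
      h2.mapDomain_apply hr h3 D₂ hD₂ Q, hWb, Q.ord_mul hg0 h3]
    ring
  -- `E ≥ 0`
  have hEnn : ∀ Q : Place (kA A) (FbN A N), 0 ≤ E Q := by
    intro Q
    rw [hEg]
    apply Fermat.Agent.S24.H52.ord_nonneg_of_mem
    have hfm : f ∈ Q.toValuationSubring :=
      (Fermat.Agent.S24.H52.mem_iff_ord_nonneg Q hf).mpr (hord Q).ge
    exact sub_mem hfm (Q.algebraMap_mem' cb)
  -- `E > 0` at the `q`-adic place
  have hEinf : 0 < E (qPlace (kA A) N) := by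
    rw [hEg, qPlace_ord (kA A) N hg0]
    have hgL : (g : LaurentSeries (kA A)) ≠ 0 := fun h => hg0 (Subtype.ext h)
    have hgcoe : (g : LaurentSeries (kA A))
        = (f : LaurentSeries (kA A)) - HahnSeries.single 0 cb := by
      rw [hg]
      show (f : LaurentSeries (kA A)) - algebraMap (kA A) (LaurentSeries (kA A)) cb = _
      rw [algebraMap_laurentSeries_eq_single]
    by_contra hcon
    have hle : (g : LaurentSeries (kA A)).order ≤ 0 := not_lt.mp hcon
    have hz : (g : LaurentSeries (kA A)).coeff (g : LaurentSeries (kA A)).order = 0 := by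
      rw [hgcoe, HahnSeries.coeff_sub]
      rcases hle.lt_or_eq with hlt | heq
      · have h1 : (f : LaurentSeries (kA A)).coeff
            ((f : LaurentSeries (kA A)) - HahnSeries.single 0 cb).order = 0 := by
          apply HahnSeries.coeff_eq_zero_of_lt_order
          rw [ho, ← hgcoe]; exact hlt
        rw [h1, HahnSeries.coeff_single_of_ne (by rw [← hgcoe]; exact hlt.ne), sub_zero]
      · rw [← hgcoe, heq, HahnSeries.coeff_single_same, ← hcb, sub_self]
    exact hgL (HahnSeries.coeff_order_eq_zero.mp hz)
  -- `deg E = 0`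
  have hdegE : Divisor.degree E = 0 := by
    rw [hE, degree_mapDomain_of_deg_eq hr.1, map_sub, hd₁, hd₂, sub_zero]
  -- the `q`-adic place is in the image of `r`, so has positive degree
  have hmem : qPlace (kA A) N ∈ E.support := by
    rw [Finsupp.mem_support_iff]; exact hEinf.ne'
  have hdegQ : 0 < (qPlace (kA A) N).deg := by
    have h := Finsupp.mapDomain_support hmem
    rw [Finset.mem_image] at h
    obtain ⟨P, -, hP⟩ := h
    rw [← hP, hr.1 P]
    exact hdeg P
  -- contradiction
  have hpos : 0 < Divisor.degree E := by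
    rw [degree_eq_sum_support]
    have hterm : 0 < E (qPlace (kA A) N) * ((qPlace (kA A) N).deg : ℤ) :=
      mul_pos hEinf (by exact_mod_cast hdegQ)
    have hnn : ∀ v ∈ E.support, 0 ≤ E v * (v.deg : ℤ) := fun v _ =>
      mul_nonneg (hEnn v) (by exact_mod_cast Nat.zero_le _)
    exact lt_of_lt_of_le hterm (Finset.single_le_sum hnn hmem)
  rw [hdegE] at hpos
  exact lt_irrefl _ hpos

/-- **CONST**: in the situation of S18, a function on the special fibre without zeros and poles
is constant. -/
theorem const_of_reduction [NeZero N]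
    (hr : IsPlaceReductionAlong A (IsLocalRing.residue A) N r)
    (f : FbN A N) (hf : f ≠ 0) (hord : ∀ Q : Place (kA A) (FbN A N), Q.ord f = 0) :
    ∃ c : kA A, f = algebraMap (kA A) (FbN A N) c :=
  const_of_reduction_aux hr
    (fun g hg => (hasPrincipalDivisors_FF N).exists_divisor g hg)
    (fun P => by rw [deg_eq_one_FF N P]; exact Nat.one_pos) f hf hord

end Fermat.Agent.S18.H13
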