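/-
S18 / Program J (helper13): RED = "S18 from Theorem T at level `N`" (step (I) of the route).

* `red_core`: from the hypothesis package `h` of S18, `m • z = 0` and `reductionModL z = 0`
  (`z = [D]`) one gets integral lifts `u₁, u₂` with the SAME nonzero reduction and a function
  `zz ≠ 0` with `ord_P u₁ - ord_P u₂ = m (D(P) - ord_P zz)` for all places `P`.
* `red_finish`: if moreover `ord_P u₁ - ord_P u₂ = m ord_P w` for some `w ≠ 0`, then `z = 0`.
* `stepI`: S18 from Theorem T in the shape "a one-unit whose divisor is divisible by `m` is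
  `c * w ^ m`" (the interface of the skeleton of the route).
* `stepI_pointwise`: S18 from Theorem T in the pointwise shape.

The hypothesis `h` is used only here.  Uses the leaf CONST (`const_of_reduction`).
-/
import Fermat.Agent.S18.H13.Const

set_option autoImplicit false

open AlgebraicCurve IntermediateField ModularCurve

noncomputable section

namespace Fermat.Agent.S18.H13

variable {A : ValuationSubring Kb} {N : ℕ}

/-- Core of RED. -/
theorem red_core [NeZero N] (h : ReductionInputsModL A N) (m : ℕ)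
    (D : Divisor.degZero (K := Kb) (F := FN N))
    (hmz : m • (Pic0.mk D : JZero N) = 0) (hz : reductionModL A N (Pic0.mk D) = 0) :
    ∃ (u₁ : FN N) (ub : FbN A N) (u₂ : FN N) (zz : FN N),
      IsIntLift A N u₁ ub ∧ IsIntLift A N u₂ ub ∧ ub ≠ 0 ∧ zz ≠ 0 ∧
        ∀ P : Place Kb (FN N),
          P.ord u₁ - P.ord u₂ = (m : ℤ) * ((D : Divisor Kb (FN N)) P - P.ord zz) := by
  classical
  have hr := isPlaceReductionModL_placeReductionModL h
  have hgen : PrincipalGeneratedByIntegral A (IsLocalRing.residue A) N := h.choose_spec.2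
  set r := placeReductionModL h with hrdef
  -- `m • D` is principal
  have hmD : m • (D : Divisor Kb (FN N)) ∈ Divisor.principal (K := Kb) (F := FN N) := by
    have h1 : (Pic0.mk (m • D) : JZero N) = 0 := hmz
    have h2 := (QuotientAddGroup.eq_zero_iff (m • D)).mp h1
    rw [AddSubgroup.mem_addSubgroupOf] at h2
    simpa using h2
  -- the reduction of `D` is principal
  have hzD : Finsupp.mapDomain r (D : Divisor Kb (FN N)) ∈
      Divisor.principal (K := kA A) (F := FbN A N) := by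
    rw [reductionModL_mk h D] at hz
    have h2 := (QuotientAddGroup.eq_zero_iff _).mp hz
    rw [AddSubgroup.mem_addSubgroupOf] at h2
    exact h2
  obtain ⟨y₁, yb₁, y₂, yb₂, hy1, n1, hy2, n2, hP⟩ := exists_intLift_of_mem_closure (hgen hmD)
  obtain ⟨φ, hφ0, hφ⟩ := hzD
  obtain ⟨z₁, zb₁, z₂, zb₂, hz1, hz2, hzb2, hφz⟩ := exists_intLift_div (A := A) (N := N) φ
  have hzb1 : zb₁ ≠ 0 := by rw [← hφz]; exact mul_ne_zero hφ0 hzb2
  have hPD := hasPrincipalDivisors_FF N
  obtain ⟨D₁, hD₁, -⟩ := hPD.exists_divisor y₁ (hy1.ne_zero n1)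
  obtain ⟨D₂, hD₂, -⟩ := hPD.exists_divisor y₂ (hy2.ne_zero n2)
  have hmDeq : m • (D : Divisor Kb (FN N)) = D₁ - D₂ :=
    Finsupp.ext fun P => by rw [hP P, Finsupp.sub_apply, hD₁, hD₂]
  -- conservation
  have key : ∀ Q : Place (kA A) (FbN A N), (m : ℤ) * Q.ord φ = Q.ord yb₁ - Q.ord yb₂ := by
    intro Q
    have h1 : Finsupp.mapDomain r (m • (D : Divisor Kb (FN N))) Q
        = Finsupp.mapDomain r (D₁ - D₂) Q := by rw [hmDeq]
    rw [Finsupp.mapDomain_smul, Finsupp.smul_apply, hφ Q, Finsupp.mapDomain_sub,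
      Finsupp.sub_apply, hy1.mapDomain_apply hr n1 D₁ hD₁ Q,
      hy2.mapDomain_apply hr n2 D₂ hD₂ Q, nsmul_eq_mul] at h1
    exact h1
  have hφord : ∀ Q : Place (kA A) (FbN A N), Q.ord φ = Q.ord zb₁ - Q.ord zb₂ := by
    intro Q
    rw [← hφz, Q.ord_mul hφ0 hzb2]; ring
  -- the quotient of the two reductions has trivial divisor
  have hub1 : yb₁ * zb₂ ^ m ≠ 0 := mul_ne_zero n1 (pow_ne_zero _ hzb2)
  have hub2 : yb₂ * zb₁ ^ m ≠ 0 := mul_ne_zero n2 (pow_ne_zero _ hzb1)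
  have hψ : ∀ Q : Place (kA A) (FbN A N), Q.ord ((yb₁ * zb₂ ^ m) / (yb₂ * zb₁ ^ m)) = 0 := by
    intro Q
    rw [Fermat.Agent.S24.ord_div Q hub1 hub2, Q.ord_mul n1 (pow_ne_zero _ hzb2),
      Q.ord_mul n2 (pow_ne_zero _ hzb1), Fermat.Agent.S24.ord_pow, Fermat.Agent.S24.ord_pow]
    have h1 := key Q
    rw [hφord Q] at h1
    linarith
  obtain ⟨cb, hcb⟩ := const_of_reduction hr _ (div_ne_zero hub1 hub2) hψ
  have hcb0 : cb ≠ 0 := by
    rintro rfl
    rw [map_zero] at hcb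
    exact div_ne_zero hub1 hub2 hcb
  obtain ⟨c, hc⟩ := IsLocalRing.residue_surjective cb
  have hc0 : (c : Kb) ≠ 0 := by
    intro h0
    have : c = 0 := Subtype.ext h0
    rw [this, map_zero] at hc
    exact hcb0 hc.symm
  have hub : yb₁ * zb₂ ^ m = algebraMap (kA A) (FbN A N) cb * (yb₂ * zb₁ ^ m) := by
    rw [← hcb]; field_simp
  have hz10 : z₁ ≠ 0 := hz1.ne_zero hzb1
  have hz20 : z₂ ≠ 0 := hz2.ne_zero hzb2
  have hy10 : y₁ ≠ 0 := hy1.ne_zero n1
  have hy20 : y₂ ≠ 0 := hy2.ne_zero n2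
  have hcF : algebraMap Kb (FN N) (c : Kb) ≠ 0 := by simpa using hc0
  refine ⟨y₁ * z₂ ^ m, yb₁ * zb₂ ^ m, algebraMap Kb (FN N) (c : Kb) * (y₂ * z₁ ^ m), z₁ / z₂,
    hy1.mul (hz2.pow m), ?_, hub1, div_ne_zero hz10 hz20, fun P => ?_⟩
  · have := (IsIntLift.const (A := A) (N := N) c).mul (hy2.mul (hz1.pow m))
    rw [hc, ← hub] at this
    exact this
  · rw [P.ord_mul hy10 (pow_ne_zero _ hz20),
      P.ord_mul hcF (mul_ne_zero hy20 (pow_ne_zero _ hz10)), P.ord_mul hy20 (pow_ne_zero _ hz10),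
      Fermat.Agent.S24.ord_pow, Fermat.Agent.S24.ord_pow, Fermat.Agent.S24.H95.ord_algebraMap,
      Fermat.Agent.S24.ord_div P hz10 hz20]
    have h1 := hP P
    rw [Finsupp.smul_apply, nsmul_eq_mul] at h1
    linarith

/-- End of RED. -/
theorem red_finish {m : ℕ} (hm0 : m ≠ 0) (D : Divisor.degZero (K := Kb) (F := FN N))
    {u₁ u₂ zz w : FN N} (hzz : zz ≠ 0) (hw0 : w ≠ 0)
    (hu : ∀ P : Place Kb (FN N),
      P.ord u₁ - P.ord u₂ = (m : ℤ) * ((D : Divisor Kb (FN N)) P - P.ord zz))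
    (hw : ∀ P : Place Kb (FN N), P.ord u₁ - P.ord u₂ = (m : ℤ) * P.ord w) :
    (Pic0.mk D : JZero N) = 0 := by
  have hprin : (D : Divisor Kb (FN N)) ∈ Divisor.principal (K := Kb) (F := FN N) := by
    refine ⟨w * zz, mul_ne_zero hw0 hzz, fun P => ?_⟩
    rw [P.ord_mul hw0 hzz]
    have h1 := hu P
    rw [hw P] at h1
    have hm : (m : ℤ) ≠ 0 := by exact_mod_cast hm0
    have h2 := mul_left_cancel₀ hm h1
    linarith
  exact (QuotientAddGroup.eq_zero_iff D).mpr (AddSubgroup.mem_addSubgroupOf.mpr hprin)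

/-- **Step (I)**: S18 from Theorem T at level `N` (one-unit shape). -/
theorem stepI (N : ℕ) [NeZero N] (A : ValuationSubring Kb)
    (h : ModularCurve.ReductionInputsModL A N) (m : ℕ) (hm0 : m ≠ 0)
    (hT : ∀ u : FN N,
      (∃ y₁ y₂ : LaurentSeries A,
        coeffMap (IsLocalRing.residue A) y₁ = coeffMap (IsLocalRing.residue A) y₂ ∧
        coeffMap (IsLocalRing.residue A) y₂ ≠ 0 ∧
        coeffMap A.subtype y₁ ∈ modularFunctionFieldBar N ∧
        (u : LaurentSeries Kb) * coeffMap A.subtype y₂ = coeffMap A.subtype y₁) →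
      (∀ P : Place Kb (FN N), (m : ℤ) ∣ P.ord u) →
      ∃ (c : Kb) (w : FN N), c ≠ 0 ∧ u = algebraMap Kb (FN N) c * w ^ m)
    (z : ModularCurve.JZero N) (hmz : m • z = 0) (hz : ModularCurve.reductionModL A N z = 0) :
    z = 0 := by
  obtain ⟨D, rfl⟩ := Pic0.mk_surjective z
  obtain ⟨u₁, ub, u₂, zz, h1, h2, hub, hzz, hu⟩ := red_core h m D hmz hz
  have hu10 : u₁ ≠ 0 := h1.ne_zero hub
  have hu20 : u₂ ≠ 0 := h2.ne_zero hub
  have hdiv : ∀ P : Place Kb (FN N), P.ord (u₁ / u₂) = P.ord u₁ - P.ord u₂ := fun P =>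
    Fermat.Agent.S24.ord_div P hu10 hu20
  obtain ⟨Y₁, e1, e1'⟩ := h1
  obtain ⟨Y₂, e2, e2'⟩ := h2
  have hubL : (ub : LaurentSeries (kA A)) ≠ 0 := fun h => hub (Subtype.ext h)
  obtain ⟨c, w, hc, hcw⟩ := hT (u₁ / u₂)
    ⟨Y₁, Y₂, by rw [e1', e2'], by rw [e2']; exact hubL, by rw [e1]; exact u₁.2, by
      rw [e1, e2]
      have : (u₁ / u₂) * u₂ = u₁ := div_mul_cancel₀ u₁ hu20
      exact_mod_cast congrArg (fun x : FN N => (x : LaurentSeries Kb)) this⟩
    (fun P => by rw [hdiv P, hu P]; exact dvd_mul_right _ _)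
  have hw0 : w ≠ 0 := by
    rintro rfl
    rw [zero_pow hm0, mul_zero] at hcw
    exact div_ne_zero hu10 hu20 hcw
  refine red_finish hm0 D hzz hw0 hu fun P => ?_
  have hcF : algebraMap Kb (FN N) c ≠ 0 := by simpa using hc
  rw [← hdiv P, hcw, P.ord_mul hcF (pow_ne_zero _ hw0), Fermat.Agent.S24.ord_pow,
    Fermat.Agent.S24.H95.ord_algebraMap, zero_add]

/-- **Step (I)**, pointwise shape: S18 from "two integral series with the same nonzero
reduction whose divisors differ by a multiple of `m` differ by the divisor of an `m`-th power". -/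
theorem stepI_pointwise (N : ℕ) [NeZero N] (A : ValuationSubring Kb)
    (h : ModularCurve.ReductionInputsModL A N) (m : ℕ) (hm0 : m ≠ 0)
    (hT : ∀ (U V : LaurentSeries A)
      (hU : coeffMap A.subtype U ∈ modularFunctionFieldBar N)
      (hV : coeffMap A.subtype V ∈ modularFunctionFieldBar N),
      coeffMap (IsLocalRing.residue A) U = coeffMap (IsLocalRing.residue A) V →
      coeffMap (IsLocalRing.residue A) U ≠ 0 →
      coeffMap (IsLocalRing.residue A) U ∈ modularFunctionFieldFullC (IsLocalRing.ResidueField A) N →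
      (∀ P : Place Kb (FN N), (m : ℤ) ∣ P.ord (⟨_, hU⟩ : FN N) - P.ord (⟨_, hV⟩ : FN N)) →
      ∃ w : FN N, w ≠ 0 ∧
        ∀ P : Place Kb (FN N), P.ord (⟨_, hU⟩ : FN N) - P.ord (⟨_, hV⟩ : FN N) = (m : ℤ) * P.ord w)
    (z : ModularCurve.JZero N) (hmz : m • z = 0) (hz : ModularCurve.reductionModL A N z = 0) :
    z = 0 := by
  obtain ⟨D, rfl⟩ := Pic0.mk_surjective z
  obtain ⟨u₁, ub, u₂, zz, h1, h2, hub, hzz, hu⟩ := red_core h m D hmz hz
  obtain ⟨Y₁, e1, e1'⟩ := h1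
  obtain ⟨Y₂, e2, e2'⟩ := h2
  have hubL : (ub : LaurentSeries (kA A)) ≠ 0 := fun h => hub (Subtype.ext h)
  have hU : coeffMap A.subtype Y₁ ∈ modularFunctionFieldBar N := by rw [e1]; exact u₁.2
  have hV : coeffMap A.subtype Y₂ ∈ modularFunctionFieldBar N := by rw [e2]; exact u₂.2
  have eU : (⟨_, hU⟩ : FN N) = u₁ := Subtype.ext e1
  have eV : (⟨_, hV⟩ : FN N) = u₂ := Subtype.ext e2
  obtain ⟨w, hw0, hw⟩ := hT Y₁ Y₂ hU hV (by rw [e1', e2']) (by rw [e1']; exact hubL)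
    (by rw [e1']; exact ub.2) (fun P => by rw [eU, eV, hu P]; exact dvd_mul_right _ _)
  exact red_finish hm0 D hzz hw0 hu fun P => by rw [← eU, ← eV]; exact hw P

end Fermat.Agent.S18.H13
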