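/-
S18 / Program J (helper13): `stepI` of the Program J skeleton, VERBATIM (prime-exponent form):
S18 from Theorem T at level `N` for all prime exponents `p ≠ ℓ`.

No constancy leaf is needed: `H13.stepI` (Red.lean) already contains CONST
(`const_of_reduction`).  Reduction to prime exponents: if `z ≠ 0` has order `d ∣ m`, pick a prime
`p ∣ d`; then `(d / p) • z` has order `p`, is killed by the reduction map, hence is `0`.
-/
import Fermat.Agent.S18.H74.TopDefs
import Fermat.Agent.S18.H13.Red

set_option autoImplicit false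

open AlgebraicCurve IntermediateField ModularCurve

noncomputable section

namespace Fermat.Agent.S18.H13

/-- **Step (I)** with `H74.TheoremT` for one exponent `m ≠ 0`. -/
theorem stepI_of_theoremT (N : ℕ) [NeZero N] (A : ValuationSubring Kb)
    (h : ModularCurve.ReductionInputsModL A N) (m : ℕ) (hm0 : m ≠ 0)
    (hT : Fermat.Agent.S18.H74.TheoremT A N m)
    (z : ModularCurve.JZero N) (hmz : m • z = 0) (hz : ModularCurve.reductionModL A N z = 0) :
    z = 0 :=
  stepI N A h m hm0 hT z hmz hz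

/-- **Step (I) = RED**, the statement of the Program J skeleton verbatim: S18 from Theorem T at
level `N` for all PRIME exponents `p ≠ ℓ`. -/
theorem stepI_prime (N : ℕ) [NeZero N] {ℓ : ℕ} [Fact ℓ.Prime] (hℓN : ¬ ℓ ∣ N)
    (A : ValuationSubring Fermat.Agent.S18.H74.Kb) (hA : A.LiesOverPrime ℓ)
    (h : ModularCurve.ReductionInputsModL A N)
    (hT : ∀ p : ℕ, p.Prime → p ≠ ℓ → Fermat.Agent.S18.H74.TheoremT A N p) (m : ℕ) (hm : ¬ ℓ ∣ m)
    (z : ModularCurve.JZero N)
    (hmz : m • z = 0) (hz : ModularCurve.reductionModL A N z = 0) : z = 0 := by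
  by_contra hz0
  have hm0 : m ≠ 0 := by
    rintro rfl
    exact hm (dvd_zero ℓ)
  set d := addOrderOf z with hd
  have hdm : d ∣ m := addOrderOf_dvd_of_nsmul_eq_zero hmz
  have hd0 : d ≠ 0 := fun h0 => hm0 (by rw [h0] at hdm; exact zero_dvd_iff.mp hdm)
  have hd1 : d ≠ 1 := fun h1 => hz0 (AddMonoid.addOrderOf_eq_one_iff.mp h1)
  obtain ⟨p, hp, hpd⟩ := Nat.exists_prime_and_dvd hd1
  have hpℓ : p ≠ ℓ := by
    rintro rfl
    exact hm (hpd.trans hdm)
  obtain ⟨e, he⟩ := hpd
  have he0 : e ≠ 0 := by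
    rintro rfl
    rw [mul_zero] at he
    exact hd0 he
  have hz' : p • (e • z) = 0 := by
    rw [← mul_nsmul', ← he, hd]
    exact addOrderOf_nsmul_eq_zero z
  have hred : ModularCurve.reductionModL A N (e • z) = 0 := by
    rw [map_nsmul, hz, nsmul_zero]
  have hez : e • z = 0 :=
    stepI_of_theoremT N A h p hp.ne_zero (hT p hp hpℓ) (e • z) hz' hred
  have hde : d ∣ e := addOrderOf_dvd_of_nsmul_eq_zero hez
  have hle : d ≤ e := Nat.le_of_dvd (Nat.pos_of_ne_zero he0) hde
  have hlt : e < d := by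
    rw [he]
    calc e = 1 * e := (one_mul e).symm
      _ < p * e := Nat.mul_lt_mul_of_pos_right hp.one_lt (Nat.pos_of_ne_zero he0)
  omega

end Fermat.Agent.S18.H13
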